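/-
Program MAZ (S15), chapter MAZ/Tate (helper28): the FORMAL TATE CURVE, definitions (brick T0).

For a field `F` and `u : F` the formal power series (in `q`)

  `Xf u = u/(1-u)² + ∑_{d ≥ 1} (∑_{m ∣ d} m (u^m + u^{-m} - 2)) q^d`,
  `Yf u = u²/(1-u)³ + ∑_{d ≥ 1} (∑_{m ∣ d} (m(m-1)/2 · u^m - m(m+1)/2 · u^{-m} + m)) q^d`

are the `q`-expansions of `X(u,q) = ∑_{n ∈ ℤ} qⁿu/(1-qⁿu)² - 2 s₁(q)` and
`Y(u,q) = ∑_{n ∈ ℤ} (qⁿu)²/(1-qⁿu)³ + s₁(q)` on `|q| < |u| < |q|⁻¹`; the Tate curve is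
`y² + x y = x³ + a4 x + a6` with `a4 = -5 s₃`, `a6 = -(5 s₃ + 7 s₅)/12`, `s_k = ∑ σ_k(n) qⁿ`.

This file: the definitions and the coefficientwise (elementary) identities of brick T2:
`DXc = 2 Yc + Xc` (the invariant differential), the symmetry `u ↦ u⁻¹`, integrality of `a6`,
`c₄ = E4`, `c₆ = -E6`.
-/
import Mathlib

set_option autoImplicit false

noncomputable section

open PowerSeries

namespace Fermat.Agent.MAZ.Tate.Defs28

/-! ### Lambert series over `ℤ` -/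

/-- `σ_k(n) = ∑_{d ∣ n} d^k` as an integer (`σ_k(0) = 0`). -/
def sig (k n : ℕ) : ℤ := ∑ d ∈ n.divisors, (d : ℤ) ^ k

@[simp] theorem sig_zero (k : ℕ) : sig k 0 = 0 := by simp [sig]

/-- The Lambert series `s_k = ∑_{n ≥ 1} σ_k(n) qⁿ = ∑_{n ≥ 1} n^k qⁿ/(1-qⁿ)`. -/
def sk (k : ℕ) : PowerSeries ℤ := PowerSeries.mk fun n => sig k n

@[simp] theorem coeff_sk (k n : ℕ) : PowerSeries.coeff n (sk k) = sig k n := by
  simp [sk]

/-- `E₄ = 1 + 240 s₃`. -/
def E4 : PowerSeries ℤ := 1 + PowerSeries.C (240 : ℤ) * sk 3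

/-- `E₆ = 1 - 504 s₅`. -/
def E6 : PowerSeries ℤ := 1 - PowerSeries.C (504 : ℤ) * sk 5

/-- `a₄ = -5 s₃`. -/
def a4 : PowerSeries ℤ := PowerSeries.C (-5 : ℤ) * sk 3

/-- The coefficients of `a₆ = -(5 s₃ + 7 s₅)/12` (the division is exact, `twelve_mul_a6c`). -/
def a6c (n : ℕ) : ℤ := -((5 * sig 3 n + 7 * sig 5 n) / 12)

/-- `a₆ = -(5 s₃ + 7 s₅)/12`. -/
def a6 : PowerSeries ℤ := PowerSeries.mk a6c

theorem twelve_dvd_aux (d : ℤ) : (12 : ℤ) ∣ 5 * d ^ 3 + 7 * d ^ 5 := by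
  have h3 : (3 : ℤ) ∣ 5 * d ^ 3 + 7 * d ^ 5 := by
    have h : ∀ r : ZMod 3, 5 * r ^ 3 + 7 * r ^ 5 = 0 := by decide
    have := h (d : ZMod 3)
    have h' : ((5 * d ^ 3 + 7 * d ^ 5 : ℤ) : ZMod 3) = 0 := by push_cast; exact this
    exact (ZMod.intCast_zmod_eq_zero_iff_dvd _ 3).mp h'
  have h4 : (4 : ℤ) ∣ 5 * d ^ 3 + 7 * d ^ 5 := by
    have h : ∀ r : ZMod 4, 5 * r ^ 3 + 7 * r ^ 5 = 0 := by decide
    have := h (d : ZMod 4)
    have h' : ((5 * d ^ 3 + 7 * d ^ 5 : ℤ) : ZMod 4) = 0 := by push_cast; exact this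
    exact (ZMod.intCast_zmod_eq_zero_iff_dvd _ 4).mp h'
  have hc : IsCoprime (3 : ℤ) 4 := by norm_num
  have := hc.mul_dvd h3 h4
  norm_num at this
  exact this

theorem twelve_dvd (n : ℕ) : (12 : ℤ) ∣ 5 * sig 3 n + 7 * sig 5 n := by
  unfold sig
  rw [Finset.mul_sum, Finset.mul_sum, ← Finset.sum_add_distrib]
  exact Finset.dvd_sum fun d _ => twelve_dvd_aux d

theorem twelve_mul_a6c (n : ℕ) : 12 * a6c n = -(5 * sig 3 n + 7 * sig 5 n) := by
  unfold a6c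
  rw [mul_neg, Int.mul_ediv_cancel' (twelve_dvd n)]

/-- `12 a₆ = -(5 s₃ + 7 s₅)`. -/
theorem twelve_mul_a6 :
    PowerSeries.C (12 : ℤ) * a6 = -(PowerSeries.C (5 : ℤ) * sk 3 + PowerSeries.C (7 : ℤ) * sk 5) := by
  ext n
  simp only [a6, PowerSeries.coeff_C_mul, PowerSeries.coeff_mk, map_neg, map_add, coeff_sk]
  exact twelve_mul_a6c n

/-- The formal Tate curve `y² + x y = x³ + a₄ x + a₆` over `ℤ⟦q⟧`. -/
def tateZ : WeierstrassCurve (PowerSeries ℤ) := ⟨1, 0, 0, a4, a6⟩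

/-- `c₄` of the Tate curve is `E₄`. -/
theorem tateZ_c4 : tateZ.c₄ = E4 := by
  simp only [WeierstrassCurve.c₄, WeierstrassCurve.b₂, WeierstrassCurve.b₄, tateZ, a4, E4]
  have h : (PowerSeries.C (-5 : ℤ)) = -5 := by
    rw [map_neg]; congr 1
  have h' : (PowerSeries.C (240 : ℤ)) = 240 := by
    exact map_ofNat (PowerSeries.C (R := ℤ)) 240
  rw [h, h']
  ring

/-- `c₆` of the Tate curve is `-E₆`. -/
theorem tateZ_c6 : tateZ.c₆ = -E6 := by
  have h12 := twelve_mul_a6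
  have h12' : (PowerSeries.C (12 : ℤ)) = 12 := map_ofNat (PowerSeries.C (R := ℤ)) 12
  have h5 : (PowerSeries.C (5 : ℤ)) = 5 := map_ofNat (PowerSeries.C (R := ℤ)) 5
  have h7 : (PowerSeries.C (7 : ℤ)) = 7 := map_ofNat (PowerSeries.C (R := ℤ)) 7
  have h504 : (PowerSeries.C (504 : ℤ)) = 504 := map_ofNat (PowerSeries.C (R := ℤ)) 504
  have hm5 : (PowerSeries.C (-5 : ℤ)) = -5 := by rw [map_neg]; congr 1
  rw [h12', h5, h7] at h12
  simp only [WeierstrassCurve.c₆, WeierstrassCurve.b₂, WeierstrassCurve.b₄, WeierstrassCurve.b₆,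
    tateZ, a4, E6]
  rw [h504, hm5]
  linear_combination (-72 : PowerSeries ℤ) * h12

/-! ### The coordinate series over a field -/

variable {F : Type*} [Field F]

/-- Coefficients of `X(u,q)`. -/
def Xc (u : F) (d : ℕ) : F :=
  if d = 0 then u / (1 - u) ^ 2 else ∑ m ∈ d.divisors, (m : F) * (u ^ m + u⁻¹ ^ m - 2)

/-- Coefficients of `Y(u,q)`. -/
def Yc (u : F) (d : ℕ) : F :=
  if d = 0 then u ^ 2 / (1 - u) ^ 3
  else ∑ m ∈ d.divisors,
    (((m * (m - 1) / 2 : ℕ) : F) * u ^ m - ((m * (m + 1) / 2 : ℕ) : F) * u⁻¹ ^ m + (m : F))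

/-- Coefficients of `u ∂/∂u X(u,q)`. -/
def DXc (u : F) (d : ℕ) : F :=
  if d = 0 then u * (1 + u) / (1 - u) ^ 3
  else ∑ m ∈ d.divisors, (m : F) ^ 2 * (u ^ m - u⁻¹ ^ m)

/-- `X(u,q)` as a formal power series in `q`. -/
def Xf (u : F) : PowerSeries F := PowerSeries.mk (Xc u)

/-- `Y(u,q)` as a formal power series in `q`. -/
def Yf (u : F) : PowerSeries F := PowerSeries.mk (Yc u)

/-- `u ∂/∂u X(u,q)` as a formal power series in `q`. -/
def DXf (u : F) : PowerSeries F := PowerSeries.mk (DXc u)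

@[simp] theorem coeff_Xf (u : F) (d : ℕ) : PowerSeries.coeff d (Xf u) = Xc u d := by simp [Xf]
@[simp] theorem coeff_Yf (u : F) (d : ℕ) : PowerSeries.coeff d (Yf u) = Yc u d := by simp [Yf]
@[simp] theorem coeff_DXf (u : F) (d : ℕ) : PowerSeries.coeff d (DXf u) = DXc u d := by simp [DXf]

/-- The coefficient series `a₄, a₆` over `F`. -/
def a4F (F : Type*) [Field F] : PowerSeries F := a4.map (Int.castRingHom F)

/-- The coefficient series `a₆` over `F`. -/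
def a6F (F : Type*) [Field F] : PowerSeries F := a6.map (Int.castRingHom F)

/-- The formal Tate curve over `F⟦q⟧`. -/
def tateF (F : Type*) [Field F] : WeierstrassCurve (PowerSeries F) := ⟨1, 0, 0, a4F F, a6F F⟩

theorem tateF_eq_map (F : Type*) [Field F] :
    tateF F = tateZ.map (PowerSeries.map (Int.castRingHom F)) := by
  simp [tateF, tateZ, WeierstrassCurve.map, a4F, a6F]

/-! ### Triangular numbers -/

theorem two_mul_tri_pred (m : ℕ) : 2 * (m * (m - 1) / 2) = m * (m - 1) := by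
  have h : 2 ∣ m * (m - 1) := by
    rcases Nat.even_or_odd m with h | h
    · exact (h.mul_right _).two_dvd
    · rcases m with _ | m
      · simp
      · have : Even (m + 1 - 1) := by
          simp only [Nat.add_sub_cancel]
          rcases h with ⟨k, hk⟩
          exact ⟨k, by omega⟩
        exact (this.mul_left _).two_dvd
  exact Nat.mul_div_cancel' h

theorem two_mul_tri (m : ℕ) : 2 * (m * (m + 1) / 2) = m * (m + 1) :=
  Nat.mul_div_cancel' (Nat.even_mul_succ_self m).two_dvd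

theorem tri_eq (m : ℕ) : m * (m + 1) / 2 = m * (m - 1) / 2 + m := by
  have h1 := two_mul_tri m
  have h2 := two_mul_tri_pred m
  have h3 : m * (m + 1) = m * (m - 1) + 2 * m := by
    rcases m with _ | m
    · simp
    · simp only [Nat.add_sub_cancel]; ring
  omega

/-! ### Brick T2: the elementary identities -/

/-- **Invariant differential**: `u ∂/∂u X = 2 Y + X`, coefficientwise. -/
theorem DXc_eq (u : F) (hu1 : u ≠ 1) (d : ℕ) : DXc u d = 2 * Yc u d + Xc u d := by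
  have h1 : (1 - u) ≠ 0 := sub_ne_zero.mpr (Ne.symm hu1)
  unfold DXc Yc Xc
  split_ifs with hd
  · field_simp
    ring
  · rw [Finset.mul_sum, ← Finset.sum_add_distrib]
    refine Finset.sum_congr rfl fun m _ => ?_
    have e1 : (2 : F) * ((m * (m - 1) / 2 : ℕ) : F) = ((m * (m - 1) : ℕ) : F) := by
      have := congrArg (Nat.cast (R := F)) (two_mul_tri_pred m)
      rw [Nat.cast_mul] at this
      exact_mod_cast this
    have e2 : (2 : F) * ((m * (m + 1) / 2 : ℕ) : F) = ((m * (m + 1) : ℕ) : F) := by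
      have := congrArg (Nat.cast (R := F)) (two_mul_tri m)
      rw [Nat.cast_mul] at this
      exact_mod_cast this
    have e3 : ((m * (m - 1) : ℕ) : F) = (m : F) ^ 2 - m := by
      rcases m with _ | m
      · simp
      · simp only [Nat.add_sub_cancel]; push_cast; ring
    have e4 : ((m * (m + 1) : ℕ) : F) = (m : F) ^ 2 + m := by push_cast; ring
    have : (2 : F) * (((m * (m - 1) / 2 : ℕ) : F) * u ^ m - ((m * (m + 1) / 2 : ℕ) : F) * u⁻¹ ^ m
        + (m : F)) = ((m : F) ^ 2 - m) * u ^ m - ((m : F) ^ 2 + m) * u⁻¹ ^ m + 2 * m := by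
      rw [← e3, ← e4, ← e1, ← e2]; ring
    rw [this]; ring

theorem DXf_eq (u : F) (hu1 : u ≠ 1) : DXf u = 2 * Yf u + Xf u := by
  ext d
  have h2 : (2 : PowerSeries F) = PowerSeries.C (2 : F) := (map_ofNat (PowerSeries.C (R := F)) 2).symm
  rw [map_add, h2, PowerSeries.coeff_C_mul, coeff_DXf, coeff_Yf, coeff_Xf, DXc_eq u hu1 d]

/-- **Symmetry**: `X(u⁻¹) = X(u)`. -/
theorem Xc_inv (u : F) (hu0 : u ≠ 0) (hu1 : u ≠ 1) (d : ℕ) : Xc u⁻¹ d = Xc u d := by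
  have h1 : (1 - u) ≠ 0 := sub_ne_zero.mpr (Ne.symm hu1)
  have h1' : (u - 1) ≠ 0 := sub_ne_zero.mpr hu1
  unfold Xc
  split_ifs with hd
  · have : (1 - u⁻¹) = (u - 1) / u := by field_simp
    rw [this]
    field_simp
    ring
  · refine Finset.sum_congr rfl fun m _ => ?_
    rw [inv_inv]; ring

theorem Xf_inv (u : F) (hu0 : u ≠ 0) (hu1 : u ≠ 1) : Xf u⁻¹ = Xf u := by
  ext d; rw [coeff_Xf, coeff_Xf, Xc_inv u hu0 hu1]

/-- **Symmetry**: `Y(u⁻¹) = -Y(u) - X(u)` (the negative of the point). -/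
theorem Yc_inv (u : F) (hu0 : u ≠ 0) (hu1 : u ≠ 1) (d : ℕ) : Yc u⁻¹ d = -Yc u d - Xc u d := by
  have h1 : (1 - u) ≠ 0 := sub_ne_zero.mpr (Ne.symm hu1)
  have h1' : (u - 1) ≠ 0 := sub_ne_zero.mpr hu1
  unfold Yc Xc
  split_ifs with hd
  · have : (1 - u⁻¹) = (u - 1) / u := by field_simp
    rw [this]
    field_simp
    ring
  · rw [← Finset.sum_neg_distrib, ← Finset.sum_sub_distrib]
    refine Finset.sum_congr rfl fun m _ => ?_
    rw [inv_inv]
    have e : ((m * (m + 1) / 2 : ℕ) : F) = ((m * (m - 1) / 2 : ℕ) : F) + m := by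
      rw [tri_eq m]; push_cast; ring
    rw [e]; ring

theorem Yf_inv (u : F) (hu0 : u ≠ 0) (hu1 : u ≠ 1) : Yf u⁻¹ = -Yf u - Xf u := by
  ext d; rw [map_sub, map_neg, coeff_Yf, coeff_Yf, coeff_Xf, Yc_inv u hu0 hu1]

end Fermat.Agent.MAZ.Tate.Defs28
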