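/-
Program MAZ (S15), chapter MAZ/Tate (helper28, architect): SPEC, part 1 = the FORMAL contracts.

Every brick is a `def ... : Prop` in the literal vocabulary of `Defs28`; a brick owner proves
`theorem <name> : Spec28.<Name>`.

* `WeierstrassEq` (T1): `(Xf u, Yf u)` lies on the formal Tate curve, for every field `F` and
  `u ≠ 0, 1`.
* `AddX`, `AddY` (T3): the chord formulas `φ(u) + φ(v) = φ(u v)` in the generic case
  `u ≠ v`, `u v ≠ 1`.

(Both were checked with exact rational arithmetic up to `q^8`.)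
-/
import Fermat.Agent.MAZ.Tate.Defs28

set_option autoImplicit false

noncomputable section

open PowerSeries

namespace Fermat.Agent.MAZ.Tate.Spec28

open Fermat.Agent.MAZ.Tate.Defs28

/-- **T1, the Weierstrass equation** `Y² + X Y = X³ + a₄ X + a₆` in `F⟦q⟧`. -/
def WeierstrassEq : Prop :=
  ∀ (F : Type) [Field F] (u : F), u ≠ 0 → u ≠ 1 →
    Yf u ^ 2 + Xf u * Yf u = Xf u ^ 3 + a4F F * Xf u + a6F F

/-- **T3, chord formula for `x`**: with `λ = (Y(u) - Y(v))/(X(u) - X(v))`,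
`X(uv) = λ² + λ - X(u) - X(v)`, denominators cleared. -/
def AddX : Prop :=
  ∀ (F : Type) [Field F] (u v : F), u ≠ 0 → u ≠ 1 → v ≠ 0 → v ≠ 1 → u ≠ v → u * v ≠ 1 →
    (Xf (u * v) + Xf u + Xf v) * (Xf u - Xf v) ^ 2 =
      (Yf u - Yf v) ^ 2 + (Yf u - Yf v) * (Xf u - Xf v)

/-- **T3, chord formula for `y`**: `Y(uv) = -(λ (X(uv) - X(u)) + Y(u)) - X(uv)`, denominators
cleared. -/
def AddY : Prop :=
  ∀ (F : Type) [Field F] (u v : F), u ≠ 0 → u ≠ 1 → v ≠ 0 → v ≠ 1 → u ≠ v → u * v ≠ 1 →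
    Yf (u * v) * (Xf u - Xf v) =
      -((Yf u - Yf v) * (Xf (u * v) - Xf u)) - (Yf u + Xf (u * v)) * (Xf u - Xf v)

/-- The leading coefficient of `X(u) - X(v)` : it is nonzero iff `u ≠ v` and `u v ≠ 1`. -/
theorem Xc_zero_sub (F : Type) [Field F] (u v : F) (hu1 : u ≠ 1) (hv1 : v ≠ 1) :
    Xc u 0 - Xc v 0 = (u - v) * (1 - u * v) / ((1 - u) ^ 2 * (1 - v) ^ 2) := by
  have h1 : (1 - u) ≠ 0 := sub_ne_zero.mpr (Ne.symm hu1)
  have h2 : (1 - v) ≠ 0 := sub_ne_zero.mpr (Ne.symm hv1)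
  simp only [Xc, if_true]
  field_simp
  ring

theorem Xf_sub_ne_zero (F : Type) [Field F] (u v : F) (hu1 : u ≠ 1) (hv1 : v ≠ 1)
    (huv : u ≠ v) (huv1 : u * v ≠ 1) : Xf u - Xf v ≠ 0 := by
  intro h
  have h0 := congrArg (PowerSeries.coeff 0) h
  rw [map_sub, coeff_Xf, coeff_Xf, map_zero, Xc_zero_sub F u v hu1 hv1] at h0
  have h1 : (1 - u) ≠ 0 := sub_ne_zero.mpr (Ne.symm hu1)
  have h2 : (1 - v) ≠ 0 := sub_ne_zero.mpr (Ne.symm hv1)
  rw [div_eq_zero_iff] at h0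
  rcases h0 with h0 | h0
  · rcases mul_eq_zero.mp h0 with h0 | h0
    · exact huv (sub_eq_zero.mp h0)
    · exact huv1 (sub_eq_zero.mp h0).symm
  · exact (mul_ne_zero (pow_ne_zero 2 h1) (pow_ne_zero 2 h2)) h0

end Fermat.Agent.MAZ.Tate.Spec28
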